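/-
S43 (route TWQ), block BASIC: EXACT unipotency of the inertia at `q ∥ M q` on `V_{p^k}(F(M q))`.

`DR.KVUnipotent M q p` holds "up to a fixed integer `d ≠ 0`" at all exponents `p ^ k`.  The tower `V_{p^k}` is
`(ℤ/p^k)^r` compatibly with the transition maps (`GAL.Tors.TorsDatum.e_red`), so `d` can be removed:
* `exists_lift_red` : for `d ≠ 0` and `k` there is `k' ≥ k` such that `KV.red : V_{p^k'} → V_{p^k}` is onto and kills the
  `d`-torsion;
* `unip_exact`, `unip_exact'` : `(σ - 1)(τ - 1) = 0` on `V_{p^k}`, resp. on `V_m(F(n))`, `m = p ^ k`, `n = M * q`.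
-/
import Fermat.Agent.DR.Final
import Fermat.Agent.DR.S34.Final
import Fermat.Agent.GAL.Tors.HeckeInput

set_option autoImplicit false

noncomputable section

namespace Fermat.Agent.S43.Basic

open AlgebraicCurve ModularCurve Fermat.Agent.S24 Fermat.Agent.GAL Fermat.Agent.GAL.Hecke
  Fermat.Agent.DR

/-- arithmetic: `d n = 0` in `ℤ/p^(k+e)`, `d = p^e d'`, `p ∤ d'` implies `n = 0` in `ℤ/p^k`. -/
theorem cast_eq_zero_of_mul {p : ℕ} (hp : p.Prime) {d' e k : ℕ} (hd' : ¬ p ∣ d')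
    (w : ZMod (p ^ (k + e))) (h : ((p ^ e * d' : ℕ) : ZMod (p ^ (k + e))) * w = 0) :
    ZMod.castHom (pow_dvd_pow p (Nat.le_add_right k e)) (ZMod (p ^ k)) w = 0 := by
  have : NeZero (p ^ (k + e)) := ⟨pow_ne_zero _ hp.ne_zero⟩
  obtain ⟨n, rfl⟩ : ∃ n : ℕ, (n : ZMod (p ^ (k + e))) = w := ⟨w.val, ZMod.natCast_zmod_val w⟩
  rw [← Nat.cast_mul, ZMod.natCast_eq_zero_iff] at h
  rw [map_natCast, ZMod.natCast_eq_zero_iff]
  have h1 : p ^ e * p ^ k ∣ p ^ e * (d' * n) := by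
    rw [← pow_add, add_comm e k, ← mul_assoc]
    exact h
  have h2 : p ^ k ∣ d' * n := Nat.dvd_of_mul_dvd_mul_left (pow_pos hp.pos e) h1
  exact (Nat.Coprime.pow_left k ((Nat.Prime.coprime_iff_not_dvd hp).2 hd')).dvd_of_dvd_mul_left h2

/-- **Removing a denominator.** -/
theorem exists_lift_red (N : ℕ) [NeZero N] {p : ℕ} (hp : p.Prime) {d : ℕ} (hd : d ≠ 0) (k : ℕ) :
    ∃ (k' : ℕ) (h : k ≤ k'),
      (∀ x : KV Kbar (FN N) (p ^ k), ∃ x' : KV Kbar (FN N) (p ^ k'),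
        KV.red (pow_dvd_pow p h) x' = x) ∧
      ∀ y' : KV Kbar (FN N) (p ^ k'), d • y' = 0 → KV.red (pow_dvd_pow p h) y' = 0 := by
  obtain ⟨D⟩ := Tors.nonempty_torsDatum' N
  obtain ⟨e, d', hd', rfl⟩ := Nat.exists_eq_pow_mul_and_not_dvd hd p hp.ne_one
  have : NeZero (p ^ k) := ⟨pow_ne_zero _ hp.ne_zero⟩
  have : NeZero (p ^ (k + e)) := ⟨pow_ne_zero _ hp.ne_zero⟩
  refine ⟨k + e, Nat.le_add_right k e, fun x => ?_, fun y' hy' => ?_⟩
  · obtain ⟨v, rfl⟩ := (D.e (p ^ k)).surjective x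
    choose v' hv' using fun i =>
      ZMod.castHom_surjective (pow_dvd_pow p (Nat.le_add_right k e)) (v i)
    refine ⟨D.e (p ^ (k + e)) v', ?_⟩
    rw [D.e_red]
    congr 1
    funext i
    exact hv' i
  · obtain ⟨w, rfl⟩ := (D.e (p ^ (k + e))).surjective y'
    rw [← map_nsmul, map_eq_zero_iff _ (D.e (p ^ (k + e))).injective] at hy'
    rw [D.e_red]
    have : (fun i => ZMod.castHom (pow_dvd_pow p (Nat.le_add_right k e)) (ZMod (p ^ k)) (w i)) = 0 := by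
      funext i
      apply cast_eq_zero_of_mul hp hd'
      have := congrFun hy' i
      simpa [nsmul_eq_mul] using this
    rw [this, map_zero]

/-- **(DR1), exact form.** -/
theorem unip_exact (M q p : ℕ) [NeZero M] [NeZero q] (hq : q.Prime) (hqM : ¬ q ∣ M) (hp : p.Prime)
    (hqp : q ≠ p) (k : ℕ) (A : ValuationSubring (AlgebraicClosure ℚ)) (hA : A.LiesOverPrime q)
    (σ : GQ) (hσ : σ ∈ A.inertiaSubgroupIn ℚ) (τ : GQ) (hτ : τ ∈ A.inertiaSubgroupIn ℚ)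
    (x : KV Kbar (FN (M * q)) (p ^ k)) : σ • τ • x - σ • x - τ • x + x = 0 := by
  obtain ⟨d, hd, hU⟩ := DR.S34.kvUnipotent_all DR.Final.drGeomNeat M q p hq hqM hp hqp
  obtain ⟨k', h, hsurj, hker⟩ := exists_lift_red (M * q) hp hd k
  obtain ⟨x', rfl⟩ := hsurj x
  have := hker _ (hU k' A hA σ hσ τ hτ x')
  simpa only [map_add, map_sub, KV.red_galois_smul] using this

/-- the same with free names for the exponent and the level. -/
theorem unip_exact' {n m : ℕ} [NeZero n] (M q p k : ℕ) (hn : n = M * q) (hm : m = p ^ k)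
    (hq : q.Prime) (hqM : ¬ q ∣ M) (hp : p.Prime) (hqp : q ≠ p)
    (A : ValuationSubring (AlgebraicClosure ℚ)) (hA : A.LiesOverPrime q)
    (σ : GQ) (hσ : σ ∈ A.inertiaSubgroupIn ℚ) (τ : GQ) (hτ : τ ∈ A.inertiaSubgroupIn ℚ)
    (x : KV Kbar (FN n) m) : σ • τ • x - σ • x - τ • x + x = 0 := by
  subst hn hm
  have : NeZero M := ⟨fun h => NeZero.ne (M * q) (by rw [h, zero_mul])⟩
  have : NeZero q := ⟨hq.ne_zero⟩
  exact unip_exact M q p hq hqM hp hqp k A hA σ hσ τ hτ x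

end Fermat.Agent.S43.Basic
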